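/-
GAMMA-BASE-Q̄ (helper5), part 0: shortcut instances (to be used as LOCAL instances of high priority)
which avoid the repeated, slow instance searches `Algebra L_H F_H` and `Algebra κ (E × E)`.
Usage: `attribute [local instance 2000] s33iAlgLev s33iAlgBar s33iAlgQ s33iModLev s33iModBar s33iModQ`.
-/
import Fermat.Agent.Lib.T1.Inst.CartUp

set_option autoImplicit false
set_option linter.style.haveILetI false
set_option synthInstance.maxHeartbeats 400000

open HahnSeries ModularCurve Fermat.Agent.TW Fermat.Agent.S05Lib Fermat.Agent.T1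

noncomputable section

namespace Fermat.Agent.S33

local notation "Qb" => AlgebraicClosure ℚ

/-- shortcut instance: `F_H` is an `L_H`-algebra -/
@[reducible] def s33iAlgLev (𝔓 : FFPlace) (N : ℕ) [NeZero N] (H : Subgroup 𝔓.I) :
    Algebra ↥(tbFix 𝔓 H) ↥(tbLevF 𝔓 N H) := inferInstance

/-- shortcut instance: `E × E` is a `κ`-algebra -/
@[reducible] def s33iAlgBar (𝔓 : FFPlace) (N : ℕ) [NeZero N] :
    Algebra (IsLocalRing.ResidueField ↥𝔓.P) (↥(tbBarF 𝔓 N) × ↥(tbBarF 𝔓 N)) := inferInstance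

/-- shortcut instance: `F` is a `ℚ̄`-algebra -/
@[reducible] def s33iAlgQ (N : ℕ) [NeZero N] : Algebra Qb ↥(modularFunctionFieldBar N) :=
  inferInstance

/-- shortcut instance: `F_H` is an `L_H`-module -/
@[reducible] def s33iModLev (𝔓 : FFPlace) (N : ℕ) [NeZero N] (H : Subgroup 𝔓.I) :
    Module ↥(tbFix 𝔓 H) ↥(tbLevF 𝔓 N H) := @Algebra.toModule _ _ _ _ (s33iAlgLev 𝔓 N H)

/-- shortcut instance: `E × E` is a `κ`-module -/
@[reducible] def s33iModBar (𝔓 : FFPlace) (N : ℕ) [NeZero N] :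
    Module (IsLocalRing.ResidueField ↥𝔓.P) (↥(tbBarF 𝔓 N) × ↥(tbBarF 𝔓 N)) :=
  @Algebra.toModule _ _ _ _ (s33iAlgBar 𝔓 N)

/-- shortcut instance: `F` is a `ℚ̄`-module -/
@[reducible] def s33iModQ (N : ℕ) [NeZero N] : Module Qb ↥(modularFunctionFieldBar N) :=
  @Algebra.toModule _ _ _ _ (s33iAlgQ N)

end Fermat.Agent.S33
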