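/-
GAMMA-INV (helper5), part 2: **inertia acts trivially on the closed fibre of the two-valuation base**.

`d = s33qBase 𝔓 N' h`, `σ ∈ 𝔓.I`, `g = arithmeticGalois … σ` (coefficientwise action on `F`).

* `s33i_smul_mem`, `s33i_res_smul` : `g` preserves the Gauss ring `𝒪` and `res (g • f) = res f`;
* `s33i_inert` : helper7's `S33rdInert d x g` for every `x` fixed by `g`;
* `s33i_exists_rep` : every element of the residue field has an inertia-fixed representative in `A`.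
-/
import Fermat.Agent.Lib.S33.Qb.Base
import Fermat.Agent.Lib.S33.Red.Fixed
import Fermat.Agent.Lib.T3.Gal.Mod
import Fermat.Agent.Lib.T2.AL.Comm
import Fermat.Agent.Lib.S33.Inv.Inst

set_option autoImplicit false
set_option linter.style.haveILetI false
set_option linter.unusedSectionVars false
set_option linter.unusedVariables false
set_option synthInstance.maxHeartbeats 400000

open HahnSeries ModularCurve Fermat.Agent.TW Fermat.Agent.S05Lib Fermat.Agent.T1 Fermat.Agent.T2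
  Fermat.Agent.T3 Fermat.Agent.S24Lib Fermat.Agent.S33Q Fermat.Agent.Curve

noncomputable section

namespace Fermat.Agent.S33

local notation "Qb" => AlgebraicClosure ℚ
local notation "GQ" => (AlgebraicClosure ℚ ≃ₐ[ℚ] AlgebraicClosure ℚ)

attribute [local instance] t2i_dvr t2i_isAlgClosed t2i_charP t2i_fact
attribute [local instance 2000] s33iAlgLev s33iAlgBar s33iAlgQ s33iModLev s33iModBar s33iModQ

variable (𝔓 : FFPlace)

/-- inertia acts trivially on the residue field -/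
theorem s33i_toRingHom_inertia {g : 𝔓.P.decompositionSubgroup ℚ}
    (hg : g ∈ ValuationSubring.inertiaSubgroup ℚ 𝔓.P) :
    MulSemiringAction.toRingHom (𝔓.P.decompositionSubgroup ℚ)
      (IsLocalRing.ResidueField ↥𝔓.P) g = RingHom.id _ := by
  have h1 : MulSemiringAction.toRingAut (𝔓.P.decompositionSubgroup ℚ)
      (IsLocalRing.ResidueField ↥𝔓.P) g = 1 := hg
  ext a
  have h2 := congrArg (fun e : RingAut (IsLocalRing.ResidueField ↥𝔓.P) => e a) h1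
  exact h2

/-- Gauss series are stable under inertia, with the same residue -/
theorem s33i_gauss_inertia {σ : GQ} (hσ : σ ∈ 𝔓.I) {f : LaurentSeries Qb}
    (hf : TbGauss 𝔓.P (IsLocalRing.residue ↥𝔓.P) f) :
    TbGauss 𝔓.P (IsLocalRing.residue ↥𝔓.P) (coeffMap ((σ : Qb ≃ₐ[ℚ] Qb) : Qb →+* Qb) f) ∧
    tbRhoFun 𝔓.P (IsLocalRing.residue ↥𝔓.P) (coeffMap ((σ : Qb ≃ₐ[ℚ] Qb) : Qb →+* Qb) f) =
      tbRhoFun 𝔓.P (IsLocalRing.residue ↥𝔓.P) f := by
  obtain ⟨g, hg, rfl⟩ := t3b_exists_of_mem_inertiaSubgroupIn 𝔓 hσ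
  obtain ⟨h1, h2⟩ := t3b_gauss_smul g hf
  refine ⟨h1, ?_⟩
  rw [h2, s33i_toRingHom_inertia 𝔓 hg, coeffMap_id]

/-- inertia preserves `A` -/
theorem s33i_mem_P_inertia {σ : GQ} (hσ : σ ∈ 𝔓.I) {a : Qb} (ha : a ∈ 𝔓.P) : σ a ∈ 𝔓.P := by
  obtain ⟨g, hg, rfl⟩ := t3b_exists_of_mem_inertiaSubgroupIn 𝔓 hσ
  exact t3b_smul_mem g ha

/-- inertia acts trivially on the residues of constants -/
theorem s33i_residue_inertia {σ : GQ} (hσ : σ ∈ 𝔓.I) {a : Qb} (ha : a ∈ 𝔓.P) :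
    IsLocalRing.residue ↥𝔓.P ⟨σ a, s33i_mem_P_inertia 𝔓 hσ ha⟩ =
      IsLocalRing.residue ↥𝔓.P ⟨a, ha⟩ := by
  obtain ⟨g, hg, rfl⟩ := t3b_exists_of_mem_inertiaSubgroupIn 𝔓 hσ
  have h1 := IsLocalRing.ResidueField.residue_smul _ g (⟨a, ha⟩ : ↥𝔓.P)
  have h2 : g • IsLocalRing.residue ↥𝔓.P (⟨a, ha⟩ : ↥𝔓.P) =
      IsLocalRing.residue ↥𝔓.P (⟨a, ha⟩ : ↥𝔓.P) := by
    have := congrArg (fun e : IsLocalRing.ResidueField ↥𝔓.P →+* IsLocalRing.ResidueField ↥𝔓.P =>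
      e (IsLocalRing.residue ↥𝔓.P (⟨a, ha⟩ : ↥𝔓.P))) (s33i_toRingHom_inertia 𝔓 hg)
    exact this
  rw [← h2, ← h1]
  rfl

/-- **every element of the residue field has an inertia-fixed representative** -/
theorem s33i_exists_rep (c : IsLocalRing.ResidueField ↥𝔓.P) :
    ∃ a : ↥𝔓.P, (∀ σ ∈ 𝔓.I, (σ : GQ) ((a : ↥𝔓.P) : Qb) = ((a : ↥𝔓.P) : Qb)) ∧
      IsLocalRing.residue ↥𝔓.P a = c := by
  obtain ⟨w, hw⟩ := tbFixRes_surjective 𝔓 ⊤ c
  refine ⟨tbFixIncl 𝔓 ⊤ w, fun σ hσ => ?_, hw⟩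
  rw [coe_tbFixIncl]
  exact (mem_tbFix 𝔓 ⊤ _).mp (Subtype.mem (w : ↥(tbFix 𝔓 ⊤))) ⟨σ, hσ⟩ (Subgroup.mem_top _)

variable (N' : ℕ) [NeZero N'] (h : ¬ 𝔓.p ∣ N')

/-- the Atkin–Lehner involution commutes with the arithmetic action -/
theorem s33i_t2w_smul (σ : GQ) (f : ↥(modularFunctionFieldBar (N' * 𝔓.p))) :
    t2w Qb N' 𝔓.p h (arithmeticGalois (modularFunctionFieldFull (N' * 𝔓.p)) σ • f) =
      arithmeticGalois (modularFunctionFieldFull (N' * 𝔓.p)) σ • t2w Qb N' 𝔓.p h f :=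
  t2w_comm Qb N' 𝔓.p h σ f

/-- **inertia preserves the Gauss ring** -/
theorem s33i_smul_mem {σ : GQ} (hσ : σ ∈ 𝔓.I) {f : ↥(modularFunctionFieldBar (N' * 𝔓.p))}
    (hf : f ∈ (s33qBase 𝔓 N' h).Ov) :
    arithmeticGalois (modularFunctionFieldFull (N' * 𝔓.p)) σ • f ∈ (s33qBase 𝔓 N' h).Ov := by
  obtain ⟨h1, h2⟩ := (mem_s33qOv 𝔓 N' h f).mp hf
  refine (mem_s33qOv 𝔓 N' h _).mpr ⟨?_, ?_⟩
  · rw [coe_arithmeticGalois_smul]
    exact (s33i_gauss_inertia 𝔓 hσ h1).1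
  · rw [s33i_t2w_smul, coe_arithmeticGalois_smul]
    exact (s33i_gauss_inertia 𝔓 hσ h2).1

/-- **inertia acts trivially on the residues** -/
theorem s33i_res_smul {σ : GQ} (hσ : σ ∈ 𝔓.I) {f : ↥(modularFunctionFieldBar (N' * 𝔓.p))}
    (hf : f ∈ (s33qBase 𝔓 N' h).Ov) :
    (s33qBase 𝔓 N' h).res ⟨arithmeticGalois (modularFunctionFieldFull (N' * 𝔓.p)) σ • f,
      s33i_smul_mem 𝔓 N' h hσ hf⟩ = (s33qBase 𝔓 N' h).res ⟨f, hf⟩ := by
  obtain ⟨h1, h2⟩ := (mem_s33qOv 𝔓 N' h f).mp hf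
  apply Prod.ext
  · apply Subtype.ext
    show tbRhoFun 𝔓.P (IsLocalRing.residue ↥𝔓.P)
      ((arithmeticGalois (modularFunctionFieldFull (N' * 𝔓.p)) σ • f :
        ↥(modularFunctionFieldBar (N' * 𝔓.p))) : LaurentSeries Qb) =
      tbRhoFun 𝔓.P (IsLocalRing.residue ↥𝔓.P) (f : LaurentSeries Qb)
    rw [coe_arithmeticGalois_smul]
    exact (s33i_gauss_inertia 𝔓 hσ h1).2
  · apply Subtype.ext
    show tbRhoFun 𝔓.P (IsLocalRing.residue ↥𝔓.P)
      ((t2w Qb N' 𝔓.p h (arithmeticGalois (modularFunctionFieldFull (N' * 𝔓.p)) σ • f) :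
        ↥(modularFunctionFieldBar (N' * 𝔓.p))) : LaurentSeries Qb) =
      tbRhoFun 𝔓.P (IsLocalRing.residue ↥𝔓.P)
        ((t2w Qb N' 𝔓.p h f : ↥(modularFunctionFieldBar (N' * 𝔓.p))) : LaurentSeries Qb)
    rw [s33i_t2w_smul, coe_arithmeticGalois_smul]
    exact (s33i_gauss_inertia 𝔓 hσ h2).2

/-- **helper7's `S33rdInert`** for the arithmetic action of an element of the inertia group -/
theorem s33i_inert {σ : GQ} (hσ : σ ∈ 𝔓.I) {x : ↥(modularFunctionFieldBar (N' * 𝔓.p))}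
    (hx : arithmeticGalois (modularFunctionFieldFull (N' * 𝔓.p)) σ • x = x) :
    S33rdInert (s33qBase 𝔓 N' h) x
      (arithmeticGalois (modularFunctionFieldFull (N' * 𝔓.p)) σ) where
  mapA := fun a ha => s33i_mem_P_inertia 𝔓 hσ ha
  mapA_symm := fun a ha => s33i_mem_P_inertia 𝔓 (𝔓.I.inv_mem hσ) ha
  resA := fun a ha => s33i_residue_inertia 𝔓 hσ ha
  mapOv := fun f hf => s33i_smul_mem 𝔓 N' h hσ hf
  mapOv_symm := fun f hf => by
    have h1 := s33i_smul_mem 𝔓 N' h (𝔓.I.inv_mem hσ) hf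
    rwa [map_inv] at h1
  res := fun f hf => s33i_res_smul 𝔓 N' h hσ hf
  fix := hx

end Fermat.Agent.S33
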