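/-
GAMMA-INV (helper5), part 3: **inertia-fixed frames, lifts and complements** for the two-valuation
base `d = s33qBase 𝔓 N' h` (helper9) of `F = ℚ̄(X₀(N' p))`.

* `s33i_exists_frame` : every finite-dimensional subspace `U ≤ F` which is stable under the inertia
  group `𝔓.I` is the span of an orthonormal frame of `d` all of whose members are fixed by `𝔓.I`
  (the frame comes from the DVR level `H = ⊤`: `alpi_exists_span_level` + `s33x_exists_frame` at
  that level + `s33iFrameUp`);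
* `s33i_lift_fun` : every element of `d.resBall U` is the residue of an inertia-fixed element of
  the unit ball of `U`;
* `s33i_exists_chart_frame` : for an inertia-invariant divisor `B` (degree `≥ 3g - 1`) and an
  effective divisor `E0` of degree `g`: the data `N, Fr, c` of helper8's `S33xChart` with `hFr`,
  `hG2a`, `hG2b` and the inertia-invariance `heG`, `hcG` — LITERALLY the inputs
  `Fr hFr heG c hcG hG2a hG2b` of helper4's `s33w_model_of_data`.
-/
import Fermat.Agent.Lib.S33.Inv.FrameUp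
import Fermat.Agent.Lib.S33.Inv.Inert
import Fermat.Agent.Lib.S33.Chart.Compl
import Fermat.Agent.Lib.Alpha.Inv.LiftFun

set_option autoImplicit false
set_option linter.style.haveILetI false
set_option linter.unusedSectionVars false
set_option linter.unusedVariables false
set_option synthInstance.maxHeartbeats 400000

open HahnSeries ModularCurve AlgebraicCurve IntermediateField Fermat.Agent.TW Fermat.Agent.S05Lib
  Fermat.Agent.T1 Fermat.Agent.T2 Fermat.Agent.S24Lib Fermat.Agent.S33Q Fermat.Agent.Curve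
  Fermat.Agent.CurveP Fermat.Agent.Alpha RRAux

noncomputable section

namespace Fermat.Agent.S33

local notation "Qb" => AlgebraicClosure ℚ
local notation "GQ" => (AlgebraicClosure ℚ ≃ₐ[ℚ] AlgebraicClosure ℚ)

attribute [local instance] t2i_dvr t2i_isAlgClosed t2i_charP t2i_fact
attribute [local instance 2000] s33iAlgLev s33iAlgBar s33iAlgQ s33iModLev s33iModBar s33iModQ

variable (𝔓 : FFPlace) (N' : ℕ) [NeZero N'] (h : ¬ 𝔓.p ∣ N')

/-- **inertia-fixed orthonormal frames**: an inertia-stable finite-dimensional space of functions is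
the span of an orthonormal frame of inertia-fixed functions -/
theorem s33i_exists_frame (U : Submodule Qb ↥(modularFunctionFieldBar (N' * 𝔓.p)))
    [FiniteDimensional Qb ↥U]
    (hU : ∀ σ ∈ 𝔓.I, ∀ f ∈ U,
      arithmeticGalois (modularFunctionFieldFull (N' * 𝔓.p)) σ • f ∈ U) :
    ∃ (n : ℕ) (Fr : S33xFrame (s33qBase 𝔓 N' h) n), Fr.spanK = U ∧
      ∀ σ ∈ 𝔓.I, ∀ j,
        arithmeticGalois (modularFunctionFieldFull (N' * 𝔓.p)) σ • Fr.e j = Fr.e j := by
  classical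
  obtain ⟨s, h₀, hh₀, hsU, hspan⟩ := alpi_exists_span_level 𝔓 (N' * 𝔓.p) U hU
  haveI : FiniteDimensional ↥(tbFix 𝔓 ⊤)
      ↥(Submodule.span ↥(tbFix 𝔓 ⊤) (Set.range h₀)) :=
    FiniteDimensional.span_of_finite _ (Set.finite_range h₀)
  obtain ⟨Fr₀, hFr₀⟩ := s33x_exists_frame (t2iBase2Fix 𝔓 ⊤ N' h)
    (Submodule.span ↥(tbFix 𝔓 ⊤) (Set.range h₀))
  refine ⟨_, s33iFrameUp 𝔓 N' h ⊤ Fr₀, ?_, fun σ hσ j => ?_⟩
  · have h1 : (s33iFrameUp 𝔓 N' h ⊤ Fr₀).spanK =
        Submodule.span Qb (Set.range fun i => tbPhiF 𝔓 (N' * 𝔓.p) ⊤ (h₀ i)) :=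
      s33i_span_up 𝔓 N' ⊤ h₀ Fr₀.e hFr₀
    rw [h1, ← hspan]
    congr 1
    ext f
    constructor
    · rintro ⟨i, rfl⟩
      show tbPhiF 𝔓 (N' * 𝔓.p) ⊤ (h₀ i) ∈ (s : Set ↥(modularFunctionFieldBar (N' * 𝔓.p)))
      rw [hh₀ i]
      exact i.2
    · intro hf
      exact ⟨⟨f, hf⟩, hh₀ ⟨f, hf⟩⟩
  · rw [s33iFrameUp_e]
    exact alpi_smul_tbPhiF 𝔓 (N' * 𝔓.p) ⊤ (σ := ⟨σ, hσ⟩) (Subgroup.mem_top _) (Fr₀.e j)

/-- an integral combination of inertia-fixed functions with inertia-fixed coefficients is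
inertia-fixed -/
theorem s33i_smul_comb {n : ℕ} (Fr : S33xFrame (s33qBase 𝔓 N' h) n) {σ : GQ}
    (he : ∀ j, arithmeticGalois (modularFunctionFieldFull (N' * 𝔓.p)) σ • Fr.e j = Fr.e j)
    (a : Fin n → Qb) (ha : ∀ j, σ (a j) = a j) :
    arithmeticGalois (modularFunctionFieldFull (N' * 𝔓.p)) σ • Fr.comb a = Fr.comb a := by
  rw [S33xFrame.comb, Finset.smul_sum]
  refine Finset.sum_congr rfl fun j _ => ?_
  rw [Algebra.smul_def, smul_mul', SemilinearAut.smul_algebraMap, he j]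
  congr 2
  exact ha j

/-- **inertia-fixed lifts of functions**: every element of the reduction of the unit ball of an
inertia-stable space is the residue of an inertia-fixed element of the unit ball -/
theorem s33i_lift_fun (U : Submodule Qb ↥(modularFunctionFieldBar (N' * 𝔓.p)))
    [FiniteDimensional Qb ↥U]
    (hU : ∀ σ ∈ 𝔓.I, ∀ f ∈ U,
      arithmeticGalois (modularFunctionFieldFull (N' * 𝔓.p)) σ • f ∈ U)
    {t : ↥(tbBarF 𝔓 N') × ↥(tbBarF 𝔓 N')} (ht : t ∈ (s33qBase 𝔓 N' h).resBall U) :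
    ∃ s : ↥(modularFunctionFieldBar (N' * 𝔓.p)), s ∈ U ∧
      (∀ σ ∈ 𝔓.I, arithmeticGalois (modularFunctionFieldFull (N' * 𝔓.p)) σ • s = s) ∧
      ∃ hO : s ∈ (s33qBase 𝔓 N' h).Ov, (s33qBase 𝔓 N' h).res ⟨s, hO⟩ = t := by
  obtain ⟨n, Fr, hFr, hfix⟩ := s33i_exists_frame 𝔓 N' h U hU
  rw [← hFr, Fr.resBall_spanK] at ht
  obtain ⟨γ, rfl⟩ := Fr.mem_spanB_iff.mp ht
  choose a haI ha using fun j => s33i_exists_rep 𝔓 (γ j)
  have hmem : Fr.comb (fun j => ((a j : ↥(s33qBase 𝔓 N' h).A) : Qb)) ∈ (s33qBase 𝔓 N' h).Ov :=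
    Fr.comb_mem_Ov a
  refine ⟨Fr.comb (fun j => ((a j : ↥(s33qBase 𝔓 N' h).A) : Qb)), ?_, fun σ hσ => ?_, hmem, ?_⟩
  · rw [← hFr]
    exact Fr.comb_mem_spanK _
  · exact s33i_smul_comb 𝔓 N' h Fr (fun j => hfix σ hσ j) _ (fun j => haI j σ hσ)
  · rw [Fr.res_comb a]
    congr 1
    funext j
    exact ha j

variable {x : ↥(modularFunctionFieldBar (N' * 𝔓.p))}
  (hx : IsFunctionFieldGen Qb ↥(modularFunctionFieldBar (N' * 𝔓.p)) x)
  [Algebra.IsSeparable (IntermediateField.adjoin Qb {x}) ↥(modularFunctionFieldBar (N' * 𝔓.p))]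

set_option maxHeartbeats 1600000 in
include hx in
/-- **the inertia-fixed frame and complement of a one-cluster chart**: LITERALLY the inputs
`Fr hFr heG c hcG hG2a hG2b` of `s33w_model_of_data` (= fields `N Fr hFr c hG2a hG2b` of
`S33xChart` + inertia-invariance) -/
theorem s33i_exists_chart_frame (B E0 : Divisor Qb ↥(modularFunctionFieldBar (N' * 𝔓.p)))
    (hBG : ∀ σ ∈ 𝔓.I, arithmeticGalois (modularFunctionFieldFull (N' * 𝔓.p)) σ • B = B)
    (hE0 : 0 ≤ E0)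
    (hE0deg : Divisor.degree E0 = CurveP.genusR Qb ↥(modularFunctionFieldBar (N' * 𝔓.p)))
    (hBdeg : 3 * (CurveP.genusR Qb ↥(modularFunctionFieldBar (N' * 𝔓.p)) : ℤ) - 1 ≤
      Divisor.degree B) :
    ∃ (N : ℕ) (Fr : S33xFrame (s33qBase 𝔓 N' h) N)
      (c : Fin (CurveP.genusR Qb ↥(modularFunctionFieldBar (N' * 𝔓.p))) → Fin N →
        ↥(s33qBase 𝔓 N' h).A),
      Fr.spanK = riemannRochSpace B ∧
      (∀ σ ∈ 𝔓.I, ∀ j,
        arithmeticGalois (modularFunctionFieldFull (N' * 𝔓.p)) σ • Fr.e j = Fr.e j) ∧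
      (∀ σ ∈ 𝔓.I, ∀ i s, (σ : GQ) ((c i s : ↥(s33qBase 𝔓 N' h).A) : Qb) =
        ((c i s : ↥(s33qBase 𝔓 N' h).A) : Qb)) ∧
      (∀ γ : Fin (CurveP.genusR Qb ↥(modularFunctionFieldBar (N' * 𝔓.p))) →
          IsLocalRing.ResidueField ↥𝔓.P,
        (∑ i, γ i • Fr.combB (fun s => (s33qBase 𝔓 N' h).resA (c i s))) ∈
          (s33qBase 𝔓 N' h).resBall (riemannRochSpace (B - E0)) → γ = 0) ∧
      Fr.spanB ≤ (s33qBase 𝔓 N' h).resBall (riemannRochSpace (B - E0)) ⊔
        Submodule.span (IsLocalRing.ResidueField ↥𝔓.P)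
          (Set.range fun i => Fr.combB (fun s => (s33qBase 𝔓 N' h).resA (c i s))) := by
  classical
  haveI : FiniteDimensional Qb ↥(riemannRochSpace B) :=
    CurveP.finiteDimensional_riemannRochSpace hx B
  haveI : FiniteDimensional Qb ↥(riemannRochSpace (B - E0)) :=
    CurveP.finiteDimensional_riemannRochSpace hx (B - E0)
  have hU : ∀ σ ∈ 𝔓.I, ∀ f ∈ riemannRochSpace B,
      arithmeticGalois (modularFunctionFieldFull (N' * 𝔓.p)) σ • f ∈ riemannRochSpace B :=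
    fun σ hσ f hf => alpi_smul_mem_rr_of_fixed _ (hBG σ hσ) hf
  obtain ⟨N, Fr, hFr, hfix⟩ := s33i_exists_frame 𝔓 N' h (riemannRochSpace B) hU
  -- the subspace `W̄₀`
  have hW : (s33qBase 𝔓 N' h).resBall (riemannRochSpace (B - E0)) ≤ Fr.spanB := by
    rw [← Fr.resBall_spanK, hFr]
    exact (s33qBase 𝔓 N' h).resBall_mono (CurveP.riemannRochSpace_mono (sub_le_self _ hE0))
  -- dimensions
  have hg0 : (0 : ℤ) ≤ (CurveP.genusR Qb ↥(modularFunctionFieldBar (N' * 𝔓.p)) : ℤ) :=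
    Int.natCast_nonneg _
  have hN : (N : ℤ) = Divisor.degree B + 1 -
      CurveP.genusR Qb ↥(modularFunctionFieldBar (N' * 𝔓.p)) := by
    have h1 : Module.finrank Qb ↥Fr.spanK = N := Fr.finrank_spanK
    have h2 : (CurveP.ell B : ℤ) = Divisor.degree B + 1 -
        CurveP.genusR Qb ↥(modularFunctionFieldBar (N' * 𝔓.p)) :=
      alpk_ell_eq hx (by omega)
    rw [← h2, ← h1, hFr]
    rfl
  have hdegBE : Divisor.degree (B - E0) = Divisor.degree B -
      CurveP.genusR Qb ↥(modularFunctionFieldBar (N' * 𝔓.p)) := by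
    rw [map_sub, hE0deg]
  have hWdim : (Module.finrank (IsLocalRing.ResidueField ↥𝔓.P)
      ↥((s33qBase 𝔓 N' h).resBall (riemannRochSpace (B - E0))) : ℤ) =
      Divisor.degree B - CurveP.genusR Qb ↥(modularFunctionFieldBar (N' * 𝔓.p)) + 1 -
        CurveP.genusR Qb ↥(modularFunctionFieldBar (N' * 𝔓.p)) := by
    rw [(s33qBase 𝔓 N' h).finrank_resBall (riemannRochSpace (B - E0))]
    have h2 : (CurveP.ell (B - E0) : ℤ) = Divisor.degree (B - E0) + 1 -
        CurveP.genusR Qb ↥(modularFunctionFieldBar (N' * 𝔓.p)) :=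
      alpk_ell_eq hx (by rw [hdegBE]; omega)
    rw [hdegBE] at h2
    exact h2
  have hdim : Module.finrank (IsLocalRing.ResidueField ↥𝔓.P)
      ↥((s33qBase 𝔓 N' h).resBall (riemannRochSpace (B - E0))) +
      CurveP.genusR Qb ↥(modularFunctionFieldBar (N' * 𝔓.p)) = N := by
    omega
  obtain ⟨c, hcP, hG2a, hG2b⟩ := s33h_exists_complement (s33qBase 𝔓 N' h) Fr
    ((s33qBase 𝔓 N' h).resBall (riemannRochSpace (B - E0))) hW hdim
    (fun t => ∀ σ ∈ 𝔓.I, (σ : GQ) ((t : ↥(s33qBase 𝔓 N' h).A) : Qb) =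
      ((t : ↥(s33qBase 𝔓 N' h).A) : Qb))
    (fun a => s33i_exists_rep 𝔓 a)
  exact ⟨N, Fr, c, hFr, hfix, fun σ hσ i s => hcP i s σ hσ, hG2a, hG2b⟩

end Fermat.Agent.S33
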