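/-
GAMMA-INV (helper5), part 1: **frames go up from a finite level to `ℚ̄`**.

`d = s33qBase 𝔓 N' h` (helper9) the two-valuation base of `F = ℚ̄(X₀(N' p))`, `d_H = t2iBase2Fix 𝔓 H N' h`
the base at the DVR level `H`, `Φ_H = tbPhiF`.

* `s33iFrameUp` : an orthonormal frame `e` of `d_H` gives the orthonormal frame `Φ_H ∘ e` of `d`, with
  the same residues;
* `s33i_span_up` : equal spans at level `H` have equal spans over `ℚ̄`;
* `s33i_resBall_level` : `d.resBall (ℚ̄ · Φ_H W) = d_H.resBall W` for finite-dimensional `W ≤ F_H`.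
-/
import Fermat.Agent.Lib.S33.Qb.Base
import Fermat.Agent.Lib.S33.Key.FrameExN
import Fermat.Agent.Lib.S33.Inv.Inst

set_option autoImplicit false
set_option linter.style.haveILetI false
set_option linter.unusedSectionVars false
set_option linter.unusedVariables false
set_option synthInstance.maxHeartbeats 400000

open HahnSeries ModularCurve Fermat.Agent.TW Fermat.Agent.S05Lib Fermat.Agent.T1 Fermat.Agent.T2
  Fermat.Agent.S24Lib Fermat.Agent.S33Q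

noncomputable section

namespace Fermat.Agent.S33

local notation "Qb" => AlgebraicClosure ℚ

attribute [local instance] t2i_dvr t2i_isAlgClosed t2i_charP t2i_fact
attribute [local instance 2000] s33iAlgLev s33iAlgBar s33iAlgQ s33iModLev s33iModBar s33iModQ

variable (𝔓 : FFPlace) (N' : ℕ) [NeZero N'] (h : ¬ 𝔓.p ∣ N')

section Up

variable (H : Subgroup 𝔓.I) [H.FiniteIndex]

/-- going up: membership in the Gauss ring of the base -/
theorem s33i_phi_mem {f : ↥(tbLevF 𝔓 (N' * 𝔓.p) H)} (hf : f ∈ (t2iBase2Fix 𝔓 H N' h).Ov) :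
    tbPhiF 𝔓 (N' * 𝔓.p) H f ∈ (s33qBase 𝔓 N' h).Ov := s33q_phi_mem 𝔓 N' h H hf

/-- going up: compatibility of the residue maps -/
theorem s33i_phi_res {f : ↥(tbLevF 𝔓 (N' * 𝔓.p) H)} (hf : f ∈ (t2iBase2Fix 𝔓 H N' h).Ov) :
    (s33qBase 𝔓 N' h).res ⟨tbPhiF 𝔓 (N' * 𝔓.p) H f, s33i_phi_mem 𝔓 N' h H hf⟩ =
      (t2iBase2Fix 𝔓 H N' h).res ⟨f, hf⟩ := s33qRes_phi 𝔓 N' h H hf

/-- **the frame over `ℚ̄` induced by a frame at a finite level** -/
def s33iFrameUp {n : ℕ} (Fr : S33xFrame (t2iBase2Fix 𝔓 H N' h) n) :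
    S33xFrame (s33qBase 𝔓 N' h) n where
  e := fun i => tbPhiF 𝔓 (N' * 𝔓.p) H (Fr.e i)
  mem := fun i => s33i_phi_mem 𝔓 N' h H (Fr.mem i)
  indep := by
    have h1 : (fun i => (s33qBase 𝔓 N' h).res ⟨tbPhiF 𝔓 (N' * 𝔓.p) H (Fr.e i),
        s33i_phi_mem 𝔓 N' h H (Fr.mem i)⟩) =
        fun i => (t2iBase2Fix 𝔓 H N' h).res ⟨Fr.e i, Fr.mem i⟩ :=
      funext fun i => s33i_phi_res 𝔓 N' h H (Fr.mem i)
    rw [h1]
    exact Fr.indep

theorem s33iFrameUp_e {n : ℕ} (Fr : S33xFrame (t2iBase2Fix 𝔓 H N' h) n) (i : Fin n) :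
    (s33iFrameUp 𝔓 N' h H Fr).e i = tbPhiF 𝔓 (N' * 𝔓.p) H (Fr.e i) := rfl

theorem s33iFrameUp_eb {n : ℕ} (Fr : S33xFrame (t2iBase2Fix 𝔓 H N' h) n) (i : Fin n) :
    (s33iFrameUp 𝔓 N' h H Fr).eb i = Fr.eb i :=
  s33i_phi_res 𝔓 N' h H (Fr.mem i)

theorem s33iFrameUp_spanB {n : ℕ} (Fr : S33xFrame (t2iBase2Fix 𝔓 H N' h) n) :
    (s33iFrameUp 𝔓 N' h H Fr).spanB = Fr.spanB := by
  unfold S33xFrame.spanB
  rw [show (s33iFrameUp 𝔓 N' h H Fr).eb = Fr.eb from funext (s33iFrameUp_eb 𝔓 N' h H Fr)]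

end Up

/-- spans at a level go up to spans over `ℚ̄` -/
theorem s33i_span_up (H : Subgroup 𝔓.I) {ι ι' : Type*} (w : ι → ↥(tbLevF 𝔓 (N' * 𝔓.p) H))
    (e : ι' → ↥(tbLevF 𝔓 (N' * 𝔓.p) H))
    (hspan : Submodule.span ↥(tbFix 𝔓 H) (Set.range e) =
      Submodule.span ↥(tbFix 𝔓 H) (Set.range w)) :
    Submodule.span Qb (Set.range fun i => tbPhiF 𝔓 (N' * 𝔓.p) H (e i)) =
      Submodule.span Qb (Set.range fun i => tbPhiF 𝔓 (N' * 𝔓.p) H (w i)) := by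
  apply le_antisymm
  · rw [Submodule.span_le]
    rintro _ ⟨i, rfl⟩
    refine tbPhiF_mem_span 𝔓 (N' * 𝔓.p) H w ?_
    rw [← hspan]
    exact Submodule.subset_span ⟨i, rfl⟩
  · rw [Submodule.span_le]
    rintro _ ⟨i, rfl⟩
    refine tbPhiF_mem_span 𝔓 (N' * 𝔓.p) H e ?_
    rw [hspan]
    exact Submodule.subset_span ⟨i, rfl⟩

/-- **the reduction of a unit ball is computed at any level of definition**: if `W ≤ F_H` is the
`L_H`-span of a family `w`, then the reduction of the unit ball of the `ℚ̄`-span of `Φ_H ∘ w` is the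
reduction of the unit ball of `W` -/
theorem s33i_resBall_level (H : Subgroup 𝔓.I) [H.FiniteIndex] {ι : Type*} [Finite ι]
    (w : ι → ↥(tbLevF 𝔓 (N' * 𝔓.p) H)) :
    (s33qBase 𝔓 N' h).resBall
        (Submodule.span Qb (Set.range fun i => tbPhiF 𝔓 (N' * 𝔓.p) H (w i))) =
      (t2iBase2Fix 𝔓 H N' h).resBall (Submodule.span ↥(tbFix 𝔓 H) (Set.range w)) := by
  haveI : FiniteDimensional ↥(tbFix 𝔓 H) ↥(Submodule.span ↥(tbFix 𝔓 H) (Set.range w)) :=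
    FiniteDimensional.span_of_finite _ (Set.finite_range w)
  obtain ⟨Fr, hFr⟩ := s33x_exists_frame (t2iBase2Fix 𝔓 H N' h)
    (Submodule.span ↥(tbFix 𝔓 H) (Set.range w))
  have h1 : (s33iFrameUp 𝔓 N' h H Fr).spanK =
      Submodule.span Qb (Set.range fun i => tbPhiF 𝔓 (N' * 𝔓.p) H (w i)) :=
    s33i_span_up 𝔓 N' H w Fr.e hFr
  rw [← h1, (s33iFrameUp 𝔓 N' h H Fr).resBall_spanK, s33iFrameUp_spanB, ← Fr.resBall_spanK, hFr]

end Fermat.Agent.S33
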