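/-
GAMMA-INV (helper5), part 5: **the fields `sm2`, `ev`, `hJ` of the `T2Setup` over `ℚ̄`**, pushed up
from the `T2Setup` at the level `H = ⊤` (T2-C).

`d = s33qBase 𝔓 N' h`, `x = s33biX 𝔓 N' h` the symmetric chart, `d₀ = t2iBase2Fix 𝔓 ⊤ N' h`,
`x₀ = t2gaX 𝔓 ⊤ N' h (p²)`, `Φ = tbPhiF`: `Φ x₀ = x`, `d.res (Φ f) = d₀.res f`.

* `s33i_resBall_t2Int_le` : `d₀.resBall (t2Int x₀) ≤ d.resBall (t2Int (Φ x₀))` (any level);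
* `s33i_sm2` : the field `sm2`;
* `s33i_exists_ev` : the fields `ev` and `hJ`.
-/
import Fermat.Agent.Lib.S33.Inv.FrameUp
import Fermat.Agent.Lib.S33.Base.Chart
import Fermat.Agent.Lib.T2.Inst.ExportF

set_option autoImplicit false
set_option linter.style.haveILetI false
set_option linter.unusedSectionVars false
set_option linter.unusedVariables false
set_option synthInstance.maxHeartbeats 400000

open HahnSeries ModularCurve Fermat.Agent.TW Fermat.Agent.S05Lib Fermat.Agent.T1 Fermat.Agent.T2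
  Fermat.Agent.S24Lib Fermat.Agent.S33Q

noncomputable section

namespace Fermat.Agent.S33

local notation "Qb" => AlgebraicClosure ℚ

attribute [local instance] t2i_dvr t2i_isAlgClosed t2i_charP t2i_fact
attribute [local instance 2000] s33iAlgLev s33iAlgBar s33iAlgQ s33iModLev s33iModBar s33iModQ

variable (𝔓 : FFPlace) (N' : ℕ) [NeZero N'] (h : ¬ 𝔓.p ∣ N')

section Up

variable (H : Subgroup 𝔓.I) [H.FiniteIndex]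

/-- **reductions of the chart rings go up** -/
theorem s33i_resBall_t2Int_le (x₀ : ↥(tbLevF 𝔓 (N' * 𝔓.p) H)) :
    (t2iBase2Fix 𝔓 H N' h).resBall (t2Int (K := ↥(tbFix 𝔓 H)) x₀) ≤
      (s33qBase 𝔓 N' h).resBall (t2Int (K := Qb) (tbPhiF 𝔓 (N' * 𝔓.p) H x₀)) := by
  rintro _ ⟨s, hs, rfl⟩
  refine ⟨tbPhiF 𝔓 (N' * 𝔓.p) H s, ⟨?_, s33i_phi_mem 𝔓 N' h H hs.2⟩, ?_⟩
  · exact (t2d_isIntegral_tbPhiF_iff 𝔓 (N' * 𝔓.p) H x₀ s).mp hs.1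
  · exact s33i_phi_res 𝔓 N' h H hs.2

end Up

/-- the chart at the level `⊤` goes up to the symmetric chart -/
theorem s33i_phi_X :
    tbPhiF 𝔓 (N' * 𝔓.p) (⊤ : Subgroup 𝔓.I) (t2gaX 𝔓 ⊤ N' h (𝔓.p ^ 2)) = s33biX 𝔓 N' h :=
  t2ca_tbPhiF_Xs 𝔓 ⊤ N' h

set_option maxHeartbeats 1600000 in
/-- **the field `sm2`**: the chart `x ≠ 0` of the special fibre is normal -/
theorem s33i_sm2 (h49 : 4 ∣ N' ∨ 9 ∣ N') (hxi : (s33biX 𝔓 N' h)⁻¹ ∈ (s33qBase 𝔓 N' h).Ov) :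
    ∀ t : ↥(tbBarF 𝔓 N') × ↥(tbBarF 𝔓 N'),
      IsIntegral ↥(Algebra.adjoin (IsLocalRing.ResidueField ↥𝔓.P)
        {(s33qBase 𝔓 N' h).res ⟨(s33biX 𝔓 N' h)⁻¹, hxi⟩}) t →
      t ∈ (s33qBase 𝔓 N' h).resBall (t2Int (K := Qb) (s33biX 𝔓 N' h)⁻¹) := by
  obtain ⟨n, su, -, hx, -⟩ :=
    t2i_exists_setup_fix_fr 𝔓 ⊤ N' h h49 1 (Nat.coprime_one_left _)
  intro t ht
  have hΦ : tbPhiF 𝔓 (N' * 𝔓.p) ⊤ su.x⁻¹ = (s33biX 𝔓 N' h)⁻¹ := by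
    rw [map_inv₀, hx, s33i_phi_X]
  have h1 : (s33qBase 𝔓 N' h).res ⟨(s33biX 𝔓 N' h)⁻¹, hxi⟩ =
      (t2iBase2Fix 𝔓 ⊤ N' h).res ⟨su.x⁻¹, su.hxi⟩ := by
    rw [← s33i_phi_res 𝔓 N' h ⊤ su.hxi]
    congr 1
    apply Subtype.ext
    exact hΦ.symm
  rw [h1] at ht
  have h2 := s33i_resBall_t2Int_le 𝔓 N' h ⊤ su.x⁻¹ (su.sm2 t ht)
  rw [hΦ] at h2
  exact h2

set_option maxHeartbeats 1600000 in
/-- **the fields `ev` and `hJ`**: evaluation at the singular points, and seminormality -/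
theorem s33i_exists_ev (h49 : 4 ∣ N' ∨ 9 ∣ N') (hx : s33biX 𝔓 N' h ∈ (s33qBase 𝔓 N' h).Ov) :
    ∃ (n : ℕ) (ev : ↥(t2R (k := IsLocalRing.ResidueField ↥𝔓.P)
        ((s33qBase 𝔓 N' h).res ⟨s33biX 𝔓 N' h, hx⟩)) →ₐ[IsLocalRing.ResidueField ↥𝔓.P]
        (Fin n → IsLocalRing.ResidueField ↥𝔓.P)),
      ∀ r : ↥(t2R (k := IsLocalRing.ResidueField ↥𝔓.P)
        ((s33qBase 𝔓 N' h).res ⟨s33biX 𝔓 N' h, hx⟩)), ev r = 0 →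
        (r : ↥(tbBarF 𝔓 N') × ↥(tbBarF 𝔓 N')) ∈
          (s33qBase 𝔓 N' h).resBall (t2Int (K := Qb) (s33biX 𝔓 N' h)) := by
  obtain ⟨n, su, -, hsx, -⟩ :=
    t2i_exists_setup_fix_fr 𝔓 ⊤ N' h h49 1 (Nat.coprime_one_left _)
  have hΦ : tbPhiF 𝔓 (N' * 𝔓.p) ⊤ su.x = s33biX 𝔓 N' h := by
    rw [hsx, s33i_phi_X]
  have h1 : (s33qBase 𝔓 N' h).res ⟨s33biX 𝔓 N' h, hx⟩ =
      (t2iBase2Fix 𝔓 ⊤ N' h).res ⟨su.x, su.hx⟩ := by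
    rw [← s33i_phi_res 𝔓 N' h ⊤ su.hx]
    congr 1
    apply Subtype.ext
    exact hΦ.symm
  have h2 : ∀ r : ↥(t2R (k := IsLocalRing.ResidueField ↥𝔓.P)
      ((t2iBase2Fix 𝔓 ⊤ N' h).res ⟨su.x, su.hx⟩)), su.ev r = 0 →
      (r : ↥(tbBarF 𝔓 N') × ↥(tbBarF 𝔓 N')) ∈
        (s33qBase 𝔓 N' h).resBall (t2Int (K := Qb) (s33biX 𝔓 N' h)) := by
    intro r hr
    have h3 := s33i_resBall_t2Int_le 𝔓 N' h ⊤ su.x (su.hJ r hr)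
    rwa [hΦ] at h3
  rw [h1]
  exact ⟨n, su.ev, h2⟩

end Fermat.Agent.S33
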